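import Mathlib

/-!
# S41, module C, file Surj: duality turns injectivity of `i` into surjectivity of `j`
-/

set_option autoImplicit false

namespace Fermat.Agent.S41.C

theorem surj {k : Type*} [Field k] {H H' : Type*} [AddCommGroup H] [Module k H]
    [FiniteDimensional k H] [AddCommGroup H'] [Module k H']
    (B : H →ₗ[k] H →ₗ[k] k) (B' : H' →ₗ[k] H' →ₗ[k] k)
    (hB : ∀ φ, (∀ ψ, B φ ψ = 0) → φ = 0) (hB' : ∀ φ, (∀ ψ, B' φ ψ = 0) → φ = 0)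
    (i₁ i₂ : H →ₗ[k] H') (j₁ j₂ : H' →ₗ[k] H)
    (adj₁ : ∀ φ ψ, B' (i₁ φ) ψ = B φ (j₁ ψ)) (adj₂ : ∀ φ ψ, B' (i₂ φ) ψ = B φ (j₂ ψ))
    {ι : Type*} (T : ι → H →ₗ[k] H) (a : ι → k)
    (hsa : ∀ ℓ φ ψ, B (T ℓ φ) ψ = B φ (T ℓ ψ))
    (hIE : ∀ z₁ z₂, i₁ z₁ + i₂ z₂ = 0 → (∀ ℓ, T ℓ z₁ = a ℓ • z₁) → (∀ ℓ, T ℓ z₂ = a ℓ • z₂) →
      z₁ = 0 ∧ z₂ = 0) (v : H × H) :
    v ∈ Submodule.span k ({x : H × H | ∃ y, x = (j₁ y, j₂ y)} ∪
      {x : H × H | ∃ ℓ w₁ w₂, x = (T ℓ w₁ - a ℓ • w₁, T ℓ w₂ - a ℓ • w₂)}) := by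
  classical
  set S := Submodule.span k ({x : H × H | ∃ y, x = (j₁ y, j₂ y)} ∪
      {x : H × H | ∃ ℓ w₁ w₂, x = (T ℓ w₁ - a ℓ • w₁, T ℓ w₂ - a ℓ • w₂)}) with hS
  by_contra hv
  have hlt : S < ⊤ := lt_top_iff_ne_top.2 (fun h => hv (h ▸ Submodule.mem_top))
  obtain ⟨f, hf0, hfS⟩ := Submodule.exists_le_ker_of_lt_top S hlt
  have hBinj : Function.Injective B := by
    rw [injective_iff_map_eq_zero]
    intro φ hφ
    exact hB φ (fun ψ => by rw [hφ]; rfl)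
  have hBsurj : Function.Surjective B :=
    (LinearMap.injective_iff_surjective_of_finrank_eq_finrank
      (Subspace.dual_finrank_eq (K := k) (V := H)).symm).1 hBinj
  obtain ⟨z₁, hz₁⟩ := hBsurj (f.comp (LinearMap.inl k H H))
  obtain ⟨z₂, hz₂⟩ := hBsurj (f.comp (LinearMap.inr k H H))
  have hf : ∀ v₁ v₂, f (v₁, v₂) = B z₁ v₁ + B z₂ v₂ := by
    intro v₁ v₂
    rw [hz₁, hz₂]
    simp only [LinearMap.comp_apply, LinearMap.inl_apply, LinearMap.inr_apply]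
    rw [← map_add]
    simp
  have hkill : ∀ x ∈ S, f x = 0 := fun x hx => hfS hx
  have h1 : i₁ z₁ + i₂ z₂ = 0 := by
    apply hB'
    intro y
    have := hkill (j₁ y, j₂ y) (Submodule.subset_span (Or.inl ⟨y, rfl⟩))
    rw [hf] at this
    rw [map_add, LinearMap.add_apply, adj₁, adj₂, this]
  have h2 : ∀ ℓ, T ℓ z₁ = a ℓ • z₁ := by
    intro ℓ
    rw [← sub_eq_zero]
    apply hB
    intro w
    have := hkill (T ℓ w - a ℓ • w, T ℓ 0 - a ℓ • 0)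
      (Submodule.subset_span (Or.inr ⟨ℓ, w, 0, rfl⟩))
    rw [hf] at this
    simp only [map_zero, smul_zero, sub_zero, add_zero, map_sub, map_smul] at this
    rw [map_sub, LinearMap.sub_apply, hsa, map_smul, LinearMap.smul_apply]
    exact this
  have h3 : ∀ ℓ, T ℓ z₂ = a ℓ • z₂ := by
    intro ℓ
    rw [← sub_eq_zero]
    apply hB
    intro w
    have := hkill (T ℓ 0 - a ℓ • 0, T ℓ w - a ℓ • w)
      (Submodule.subset_span (Or.inr ⟨ℓ, 0, w, rfl⟩))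
    rw [hf] at this
    simp only [map_zero, smul_zero, sub_zero, zero_add, map_sub, map_smul] at this
    rw [map_sub, LinearMap.sub_apply, hsa, map_smul, LinearMap.smul_apply]
    exact this
  obtain ⟨e1, e2⟩ := hIE z₁ z₂ h1 h2 h3
  apply hf0
  ext x
  · simp only [LinearMap.comp_apply, LinearMap.inl_apply, LinearMap.zero_apply]
    rw [hf, e1, e2]; simp
  · simp only [LinearMap.comp_apply, LinearMap.inr_apply, LinearMap.zero_apply]
    rw [hf, e1, e2]; simp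

end Fermat.Agent.S41.C
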