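import Fermat.Agent.S41.C.Lift
import Fermat.Agent.S41.C.Surj

/-!
# S41, module C, file Main: the abstract core of level raising
-/

set_option autoImplicit false

namespace Fermat.Agent.S41.C

theorem main (p : ℕ) [Fact p.Prime]
    {L L' : Type*} [AddCommGroup L] [AddCommGroup L'] [Module.Finite ℤ L]
    {H H' : Type*} [AddCommGroup H] [Module (ZMod p) H] [FiniteDimensional (ZMod p) H]
    [AddCommGroup H'] [Module (ZMod p) H']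
    (red : L →+ H) (red' : L' →+ H')
    (hred : Function.Surjective red) (hred' : Function.Surjective red')
    (hker : ∀ v, red v = 0 → ∃ w, v = (p : ℤ) • w)
    (hker' : ∀ v, red' v = 0 → ∃ w, v = (p : ℤ) • w)
    {𝕋 𝕋' : Type*} [CommRing 𝕋] [CommRing 𝕋']
    (h : 𝕋 →+* Module.End ℤ L) (h' : 𝕋' →+* Module.End ℤ L')
    {ι : Type*} (t : ι → 𝕋) (t' : ι → 𝕋') (a : ι → ℤ)
    (Tb : ι → H →ₗ[ZMod p] H) (Tb' : ι → H' →ₗ[ZMod p] H')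
    (hT : ∀ ℓ v, red (h (t ℓ) v) = Tb ℓ (red v))
    (hT' : ∀ ℓ v, red' (h' (t' ℓ) v) = Tb' ℓ (red' v))
    (j₁ j₂ : L' →ₗ[ℤ] L) (jb₁ jb₂ : H' →ₗ[ZMod p] H) (i₁ i₂ : H →ₗ[ZMod p] H')
    (hj₁ : ∀ x, red (j₁ x) = jb₁ (red' x)) (hj₂ : ∀ x, red (j₂ x) = jb₂ (red' x))
    (hjT₁ : ∀ ℓ x, j₁ (h' (t' ℓ) x) = h (t ℓ) (j₁ x))
    (hjT₂ : ∀ ℓ x, j₂ (h' (t' ℓ) x) = h (t ℓ) (j₂ x))
    (B : H →ₗ[ZMod p] H →ₗ[ZMod p] ZMod p) (B' : H' →ₗ[ZMod p] H' →ₗ[ZMod p] ZMod p)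
    (hB : ∀ φ, (∀ ψ, B φ ψ = 0) → φ = 0) (hB' : ∀ φ, (∀ ψ, B' φ ψ = 0) → φ = 0)
    (adj₁ : ∀ φ ψ, B' (i₁ φ) ψ = B φ (jb₁ ψ)) (adj₂ : ∀ φ ψ, B' (i₂ φ) ψ = B φ (jb₂ ψ))
    (hsa : ∀ ℓ φ ψ, B (Tb ℓ φ) ψ = B φ (Tb ℓ ψ))
    (hIE : ∀ z₁ z₂, i₁ z₁ + i₂ z₂ = 0 → (∀ ℓ, Tb ℓ z₁ = (a ℓ : ZMod p) • z₁) →
      (∀ ℓ, Tb ℓ z₂ = (a ℓ : ZMod p) • z₂) → z₁ = 0 ∧ z₂ = 0)
    (y : H') (hy : ∀ ℓ, Tb' ℓ y = (a ℓ : ZMod p) • y) (hy₁ : jb₁ y = 0) (hy₂ : jb₂ y = 0) :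
    ∃ x : L', j₁ x = 0 ∧ j₂ x = 0 ∧ red' x = y := by
  classical
  -- multiplication by `p` kills the reductions
  have hpH : ∀ w : H, (p : ℤ) • w = 0 := by
    intro w
    rw [← Int.cast_smul_eq_zsmul (ZMod p)]
    simp
  have hpH' : ∀ w : H', (p : ℤ) • w = 0 := by
    intro w
    rw [← Int.cast_smul_eq_zsmul (ZMod p)]
    simp
  let e : MvPolynomial ι ℤ →+* 𝕋 := (MvPolynomial.aeval t : MvPolynomial ι ℤ →ₐ[ℤ] 𝕋).toRingHom
  let e' : MvPolynomial ι ℤ →+* 𝕋' :=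
    (MvPolynomial.aeval t' : MvPolynomial ι ℤ →ₐ[ℤ] 𝕋').toRingHom
  let dg : Module.End ℤ L →+* Module.End ℤ (L × L) :=
    { toFun := fun f => f.prodMap f
      map_one' := by ext <;> rfl
      map_mul' := fun f g => by ext <;> rfl
      map_zero' := by ext <;> rfl
      map_add' := fun f g => by ext <;> rfl }
  let ρ : MvPolynomial ι ℤ →+* Module.End ℤ (L × L) := dg.comp (h.comp e)
  let ρ' : MvPolynomial ι ℤ →+* Module.End ℤ L' := h'.comp e'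
  have hρ : ∀ P v, ρ P v = (h (e P) v.1, h (e P) v.2) := fun _ _ => rfl
  have hρ' : ∀ P v, ρ' P v = h' (e' P) v := fun _ _ => rfl
  have heX : ∀ ℓ, e (MvPolynomial.X ℓ) = t ℓ := fun ℓ => MvPolynomial.aeval_X t ℓ
  have heX' : ∀ ℓ, e' (MvPolynomial.X ℓ) = t' ℓ := fun ℓ => MvPolynomial.aeval_X t' ℓ
  have heC : ∀ n : ℤ, e (MvPolynomial.C n) = (n : 𝕋) := fun n => by
    have := MvPolynomial.aeval_C t n
    simp [e]
  have heC' : ∀ n : ℤ, e' (MvPolynomial.C n) = (n : 𝕋') := fun n => by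
    have := MvPolynomial.aeval_C t' n
    simp [e']
  have hhC : ∀ (n : ℤ) (v : L), h (n : 𝕋) v = n • v := by
    intro n v
    rw [map_intCast]
    simp
  have hhC' : ∀ (n : ℤ) (v : L'), h' (n : 𝕋') v = n • v := by
    intro n v
    rw [map_intCast]
    simp
  let j : L' →ₗ[ℤ] L × L := j₁.prod j₂
  have hjj : ∀ x, j x = (j₁ x, j₂ x) := fun _ => rfl
  have hj : ∀ P x, j (ρ' P x) = ρ P (j x) := by
    intro P
    induction P using MvPolynomial.induction_on with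
    | C n =>
      intro x
      rw [hρ, hρ', heC, heC', hhC', hjj, hjj, hhC, hhC, map_smul, map_smul]
    | add P Q hP hQ =>
      intro x
      rw [map_add, map_add, LinearMap.add_apply, LinearMap.add_apply, map_add, hP, hQ]
    | mul_X P ℓ hP =>
      intro x
      rw [map_mul, map_mul, Module.End.mul_apply, Module.End.mul_apply, hP]
      congr 1
      rw [hρ, hρ', heX, heX', hjj, hjj, hjT₁, hjT₂]
  let 𝔪 : Ideal (MvPolynomial ι ℤ) := Ideal.span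
    ({MvPolynomial.C (p : ℤ)} ∪ Set.range (fun ℓ => MvPolynomial.X ℓ - MvPolynomial.C (a ℓ)))
  obtain ⟨Y, hYy⟩ := hred' y
  have hY : ∀ P ∈ 𝔪, ∃ v, ρ' P Y = (p : ℤ) • v := by
    intro P hP
    induction hP using Submodule.span_induction with
    | mem g hg =>
      rcases hg with hg | ⟨ℓ, rfl⟩
      · rw [Set.mem_singleton_iff] at hg
        subst hg
        exact ⟨Y, by rw [hρ', heC', hhC']⟩
      · apply hker'
        rw [hρ', map_sub, heX', heC', map_sub, LinearMap.sub_apply, hhC', map_sub, hT', hYy, hy,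
          map_zsmul, hYy, Int.cast_smul_eq_zsmul, sub_self]
    | zero => exact ⟨0, by simp⟩
    | add P Q _ _ hP hQ =>
      obtain ⟨v, hv⟩ := hP
      obtain ⟨w, hw⟩ := hQ
      exact ⟨v + w, by rw [map_add, LinearMap.add_apply, hv, hw, smul_add]⟩
    | smul r P _ hP =>
      obtain ⟨v, hv⟩ := hP
      exact ⟨ρ' r v, by rw [smul_eq_mul, map_mul, Module.End.mul_apply, hv, map_smul]⟩
  have hjY : ∃ r, j Y = (p : ℤ) • r := by
    obtain ⟨r₁, hr₁⟩ := hker (j₁ Y) (by rw [hj₁, hYy, hy₁])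
    obtain ⟨r₂, hr₂⟩ := hker (j₂ Y) (by rw [hj₂, hYy, hy₂])
    exact ⟨(r₁, r₂), by rw [hjj, hr₁, hr₂]; rfl⟩
  -- surjectivity
  let 𝒮 : AddSubgroup (L × L) := AddSubgroup.closure
      ({x | ∃ y, x = j y} ∪ {x | ∃ P ∈ 𝔪, ∃ v', x = ρ P v'})
  have hp𝒮 : ∀ v : L × L, (p : ℤ) • v ∈ 𝒮 := by
    intro v
    apply AddSubgroup.subset_closure
    right
    refine ⟨MvPolynomial.C (p : ℤ), Ideal.subset_span (Or.inl rfl), v, ?_⟩
    rw [hρ, heC, hhC, hhC]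
    rfl
  let 𝒱 : Submodule (ZMod p) (H × H) :=
    { carrier := {w | ∃ v ∈ 𝒮, (red v.1, red v.2) = w}
      zero_mem' := ⟨0, 𝒮.zero_mem, by simp⟩
      add_mem' := by
        rintro _ _ ⟨v, hv, rfl⟩ ⟨w, hw, rfl⟩
        exact ⟨v + w, 𝒮.add_mem hv hw, by simp⟩
      smul_mem' := by
        rintro c _ ⟨v, hv, rfl⟩
        obtain ⟨n, rfl⟩ := ZMod.intCast_surjective c
        refine ⟨n • v, 𝒮.zsmul_mem hv n, ?_⟩
        rw [Int.cast_smul_eq_zsmul]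
        simp }
  have hsurj : ∀ v : L × L, v ∈ 𝒮 := by
    intro v
    have h1 := surj B B' hB hB' i₁ i₂ jb₁ jb₂ adj₁ adj₂ Tb (fun ℓ => (a ℓ : ZMod p)) hsa hIE
      (red v.1, red v.2)
    have h2 : Submodule.span (ZMod p) ({x : H × H | ∃ y, x = (jb₁ y, jb₂ y)} ∪
        {x : H × H | ∃ ℓ w₁ w₂, x = (Tb ℓ w₁ - (a ℓ : ZMod p) • w₁,
          Tb ℓ w₂ - (a ℓ : ZMod p) • w₂)}) ≤ 𝒱 := by
      rw [Submodule.span_le]
      rintro _ (⟨y', rfl⟩ | ⟨ℓ, w₁, w₂, rfl⟩)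
      · obtain ⟨Y', rfl⟩ := hred' y'
        exact ⟨j Y', AddSubgroup.subset_closure (Or.inl ⟨Y', rfl⟩), by rw [hjj, hj₁, hj₂]⟩
      · obtain ⟨W₁, rfl⟩ := hred w₁
        obtain ⟨W₂, rfl⟩ := hred w₂
        refine ⟨ρ (MvPolynomial.X ℓ - MvPolynomial.C (a ℓ)) (W₁, W₂),
          AddSubgroup.subset_closure (Or.inr ⟨_, Ideal.subset_span (Or.inr ⟨ℓ, rfl⟩), _, rfl⟩), ?_⟩
        rw [hρ, map_sub, heX, heC, map_sub, LinearMap.sub_apply, LinearMap.sub_apply, hhC, hhC,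
          map_sub, map_sub, hT, hT, map_zsmul, map_zsmul, Int.cast_smul_eq_zsmul,
          Int.cast_smul_eq_zsmul]
    obtain ⟨v₀, hv₀, hv₀v⟩ := h2 h1
    have e1 : red (v.1 - v₀.1) = 0 := by
      have h3 : red v₀.1 = red v.1 := (Prod.ext_iff.mp hv₀v).1
      rw [map_sub, h3, sub_self]
    have e2 : red (v.2 - v₀.2) = 0 := by
      have h3 : red v₀.2 = red v.2 := (Prod.ext_iff.mp hv₀v).2
      rw [map_sub, h3, sub_self]
    obtain ⟨w₁, hw₁⟩ := hker _ e1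
    obtain ⟨w₂, hw₂⟩ := hker _ e2
    have : v = v₀ + (p : ℤ) • (w₁, w₂) := by
      ext
      · show v.1 = v₀.1 + (p : ℤ) • w₁
        rw [← hw₁]; abel
      · show v.2 = v₀.2 + (p : ℤ) • w₂
        rw [← hw₂]; abel
    rw [this]
    exact 𝒮.add_mem hv₀ (hp𝒮 _)
  obtain ⟨x, v, hx, hxv⟩ := lift ρ ρ' j hj 𝔪 (p : ℤ) hsurj Y hY hjY
  refine ⟨x, (Prod.ext_iff.mp hx).1, (Prod.ext_iff.mp hx).2, ?_⟩
  rw [hxv, map_add, map_zsmul, hpH', add_zero, hYy]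

end Fermat.Agent.S41.C
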