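import Mathlib

/-!
# S41, module C, file Socle
-/

set_option autoImplicit false

namespace Fermat.Agent.S41.C

/-- A finite module `V` with `𝔫 V ≠ V` has a nonzero element killed by `𝔫`. -/
theorem Socle_aux {R : Type*} [CommRing R] {V : Type*} [AddCommGroup V] [Module R V] [Finite V]
    (𝔫 : Ideal R) (h : 𝔫 • (⊤ : Submodule R V) ≠ ⊤) :
    ∃ v : V, v ≠ 0 ∧ ∀ t ∈ 𝔫, t • v = 0 := by
  classical
  -- the chain `𝔫 ^ k V` stabilises
  let f : ℕ →o (Submodule R V)ᵒᵈ :=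
    { toFun := fun k => OrderDual.toDual (𝔫 ^ k • (⊤ : Submodule R V))
      monotone' := by
        intro a b hab
        show 𝔫 ^ b • (⊤ : Submodule R V) ≤ 𝔫 ^ a • (⊤ : Submodule R V)
        exact Submodule.smul_mono_left (Ideal.pow_le_pow_right hab) }
  obtain ⟨n, hn⟩ := IsArtinian.monotone_stabilizes f
  have hn1 : 𝔫 ^ n • (⊤ : Submodule R V) = 𝔫 ^ (n + 1) • (⊤ : Submodule R V) :=
    hn (n + 1) (Nat.le_succ n)
  have hW : 𝔫 ^ n • (⊤ : Submodule R V) ≤ 𝔫 • (𝔫 ^ n • (⊤ : Submodule R V)) := by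
    rw [← Submodule.mul_smul, ← pow_succ']
    exact hn1.le
  obtain ⟨s, hs1, hs⟩ := Submodule.exists_sub_one_mem_and_smul_eq_zero_of_fg_of_le_smul 𝔫 _
    (IsNoetherian.noetherian _) hW
  -- `s V ≠ 0`
  have hsV : ∃ v0 : V, s • v0 ≠ 0 := by
    by_contra hcon
    push Not at hcon
    apply h
    rw [eq_top_iff]
    intro v _
    have hv : v = (-(s - 1)) • v := by
      rw [neg_sub, sub_smul, one_smul, hcon v, sub_zero]
    rw [hv]
    exact Submodule.smul_mem_smul (𝔫.neg_mem hs1) Submodule.mem_top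
  obtain ⟨v0, hv0⟩ := hsV
  have hex : ∃ j : ℕ, ∀ t ∈ 𝔫 ^ j, t • (s • v0) = 0 := by
    refine ⟨n, fun t ht => ?_⟩
    rw [smul_comm]
    exact hs _ (Submodule.smul_mem_smul ht Submodule.mem_top)
  have hj := Nat.find_spec hex
  have hjmin := fun m => Nat.find_min hex (m := m)
  set j := Nat.find hex with hjdef
  have hj0 : j ≠ 0 := by
    intro h0
    rw [h0, pow_zero] at hj
    exact hv0 (by simpa using hj 1 (by simp))
  obtain ⟨i, hi⟩ := Nat.exists_eq_succ_of_ne_zero hj0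
  have hi' := hjmin i (by omega)
  push Not at hi'
  obtain ⟨t, ht, htne⟩ := hi'
  refine ⟨t • (s • v0), htne, fun u hu => ?_⟩
  rw [← mul_smul]
  apply hj
  rw [hi, Nat.succ_eq_add_one, pow_succ']
  exact Ideal.mul_mem_mul hu ht

/-- socle: a faithful finitely generated module has a nonzero `𝔫`-torsion element modulo `p`. -/
theorem exists_socle {R : Type*} [CommRing R] {L : Type*} [AddCommGroup L] [Module.Finite ℤ L]
    (ρ : R →+* Module.End ℤ L) (hinj : Function.Injective ρ) (𝔫 : Ideal R) (h𝔫 : 𝔫 ≠ ⊤)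
    (p : ℕ) (hp0 : p ≠ 0) (hp : (p : R) ∈ 𝔫) :
    ∃ x : L, (¬ ∃ y, x = (p : ℤ) • y) ∧ ∀ t ∈ 𝔫, ∃ y, ρ t x = (p : ℤ) • y := by
  let _ : Module R L := Module.compHom L ρ
  have hsmul : ∀ (r : R) (x : L), r • x = ρ r x := fun _ _ => rfl
  have : Module.Finite R L := Module.Finite.of_restrictScalars_finite ℤ R L
  -- `L ≠ 𝔫 L`
  have h1 : 𝔫 • (⊤ : Submodule R L) ≠ ⊤ := by
    intro htop
    obtain ⟨r, hr1, hr⟩ := Submodule.exists_sub_one_mem_and_smul_eq_zero_of_fg_of_le_smul 𝔫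
      (⊤ : Submodule R L) Module.Finite.fg_top (by rw [htop])
    have hr0 : r = 0 := by
      apply hinj
      rw [map_zero]
      ext x
      exact hr x Submodule.mem_top
    rw [hr0, zero_sub] at hr1
    exact h𝔫 ((Ideal.eq_top_iff_one 𝔫).mpr (by simpa using 𝔫.neg_mem hr1))
  -- the submodule `p L`
  let P : Submodule R L := LinearMap.range ((p : R) • (LinearMap.id : L →ₗ[R] L))
  have hpsmul : ∀ y : L, (p : R) • y = (p : ℤ) • y := by
    intro y
    rw [Nat.cast_smul_eq_nsmul, natCast_zsmul]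
  have hP : ∀ x : L, x ∈ P ↔ ∃ y, x = (p : ℤ) • y := by
    intro x
    constructor
    · rintro ⟨y, rfl⟩
      exact ⟨y, by simp [hpsmul]⟩
    · rintro ⟨y, rfl⟩
      exact ⟨y, by simp [hpsmul]⟩
  have hPle : P ≤ 𝔫 • (⊤ : Submodule R L) := by
    rintro _ ⟨y, rfl⟩
    exact Submodule.smul_mem_smul hp Submodule.mem_top
  have : Finite (L ⧸ P) := by
    have : Module.Finite ℤ (L ⧸ P) := Module.Finite.quotient ℤ P
    apply Module.finite_of_fg_torsion
    intro v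
    obtain ⟨x, rfl⟩ := P.mkQ_surjective v
    refine ⟨⟨(p : ℤ), ?_⟩, ?_⟩
    · rw [mem_nonZeroDivisors_iff_ne_zero]
      exact_mod_cast hp0
    · show (p : ℤ) • P.mkQ x = 0
      rw [← map_zsmul, Submodule.mkQ_apply, Submodule.Quotient.mk_eq_zero, hP]
      exact ⟨x, rfl⟩
  have h2 : 𝔫 • (⊤ : Submodule R (L ⧸ P)) ≠ ⊤ := by
    intro htop
    apply h1
    rw [eq_top_iff]
    intro x _
    have hx : P.mkQ x ∈ 𝔫 • (⊤ : Submodule R (L ⧸ P)) := by rw [htop]; exact Submodule.mem_top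
    have hmap : 𝔫 • (⊤ : Submodule R (L ⧸ P)) = (𝔫 • (⊤ : Submodule R L)).map P.mkQ := by
      rw [Submodule.map_smul'', Submodule.map_top, Submodule.range_mkQ]
    rw [hmap] at hx
    obtain ⟨y, hy, hyx⟩ := hx
    have hyx' : y - x ∈ P := by
      rw [← Submodule.Quotient.mk_eq_zero P, Submodule.Quotient.mk_sub, sub_eq_zero]
      exact hyx
    have : x = y - (y - x) := by abel
    rw [this]
    exact Submodule.sub_mem _ hy (hPle hyx')
  obtain ⟨v, hv0, hv⟩ := Socle_aux 𝔫 h2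
  obtain ⟨x, rfl⟩ := P.mkQ_surjective v
  refine ⟨x, ?_, fun t ht => ?_⟩
  · rw [← hP]
    intro hx
    exact hv0 ((Submodule.Quotient.mk_eq_zero P).mpr hx)
  · rw [← hP, ← hsmul, ← Submodule.Quotient.mk_eq_zero P]
    exact hv t ht

end Fermat.Agent.S41.C
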