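import Mathlib

/-!
# S41, module C: the abstract core (Mathlib only)

`exists_mem_ker`: let `j : H → L` be a map of abelian groups, `L` finitely generated, with
commuting endomorphisms `ηH`, `ηL`.  Suppose `ηL L ⊆ j H + p L` (this is what the elementary
replacement of Ihara's lemma plus duality gives).  If `Y : H` satisfies `j Y ∈ p L` and
`ηH Y ≡ c0 Y mod p`, then there is `x ∈ ker j` with `x ≡ c0 ^ n • Y mod p`.
-/

namespace Fermat.Agent.S41.C

open Polynomial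

theorem exists_eq_X_pow_add (p : ℤ) (P : ℤ[X]) (hm : P.Monic)
    (hc : ∀ k, P.coeff k ∈ (Ideal.span {p} : Ideal ℤ) ^ (P.natDegree - k)) :
    ∃ Q : ℤ[X], P = X ^ P.natDegree + C p * Q := by
  have h : C p ∣ P - X ^ P.natDegree := by
    rw [Polynomial.C_dvd_iff_dvd_coeff]
    intro k
    rw [coeff_sub, coeff_X_pow]
    rcases lt_trichotomy k P.natDegree with hk | hk | hk
    · rw [if_neg hk.ne, sub_zero]
      have h1 := hc k
      have h2 : (Ideal.span {p} : Ideal ℤ) ^ (P.natDegree - k) ≤ Ideal.span {p} :=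
        Ideal.pow_le_self (by omega)
      exact Ideal.mem_span_singleton.mp (h2 h1)
    · subst hk
      rw [if_pos rfl, coeff_natDegree, hm.leadingCoeff, sub_self]
      exact dvd_zero _
    · rw [if_neg hk.ne', coeff_eq_zero_of_natDegree_lt hk, sub_zero]
      exact dvd_zero _
  obtain ⟨Q, hQ⟩ := h
  exact ⟨Q, by rw [← hQ]; ring⟩

variable {L H : Type*} [AddCommGroup L] [AddCommGroup H]

theorem aeval_comm (j : H →ₗ[ℤ] L) (ηL : L →ₗ[ℤ] L) (ηH : H →ₗ[ℤ] H)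
    (hcomm : ∀ h, j (ηH h) = ηL (j h)) (P : ℤ[X]) (h : H) :
    j (aeval ηH P h) = aeval ηL P (j h) := by
  induction P using Polynomial.induction_on' generalizing h with
  | add P Q hP hQ => simp [hP, hQ]
  | monomial n a =>
    simp only [aeval_monomial, Module.End.mul_apply, Module.algebraMap_end_apply, map_smul]
    congr 1
    induction n generalizing h with
    | zero => simp
    | succ n ih => rw [pow_succ, pow_succ, Module.End.mul_apply, Module.End.mul_apply, ih, hcomm]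

theorem pow_apply_congr (p : ℤ) (ηH : H →ₗ[ℤ] H) (Y : H) (c0 : ℤ)
    (hη : ∃ Y', ηH Y = c0 • Y + p • Y') (n : ℕ) :
    ∃ Y', (ηH ^ n) Y = c0 ^ n • Y + p • Y' := by
  induction n with
  | zero => exact ⟨0, by simp⟩
  | succ n ih =>
    obtain ⟨Y₁, h₁⟩ := ih
    obtain ⟨Y₂, h₂⟩ := hη
    refine ⟨c0 ^ n • Y₂ + ηH Y₁, ?_⟩
    rw [pow_succ', Module.End.mul_apply, h₁, map_add, map_smul, map_smul, h₂]
    simp only [smul_add, smul_smul]
    rw [pow_succ]
    have : c0 ^ n * p = p * c0 ^ n := mul_comm _ _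
    rw [this]
    abel

theorem exists_mem_ker [Module.Finite ℤ L] (p : ℤ)
    (j : H →ₗ[ℤ] L) (ηL : L →ₗ[ℤ] L) (ηH : H →ₗ[ℤ] H)
    (hcomm : ∀ h, j (ηH h) = ηL (j h))
    (hC2 : ∀ w, ∃ h w', ηL w = j h + p • w')
    (Y : H) (c0 : ℤ) (hY : ∃ r, j Y = p • r) (hη : ∃ Y', ηH Y = c0 • Y + p • Y') :
    ∃ (x : H) (n : ℕ) (Y' : H), j x = 0 ∧ x = c0 ^ n • Y + p • Y' := by
  classical
  set R : Submodule ℤ L := LinearMap.range j with hR
  have hmap : R ≤ R.comap ηL := by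
    rintro _ ⟨h, rfl⟩
    exact ⟨ηH h, hcomm h⟩
  set ηC : (L ⧸ R) →ₗ[ℤ] (L ⧸ R) := R.mapQ R ηL hmap with hηC
  have hrange : LinearMap.range ηC ≤ (Ideal.span {p} : Ideal ℤ) • (⊤ : Submodule ℤ (L ⧸ R)) := by
    rintro _ ⟨c, rfl⟩
    obtain ⟨w, rfl⟩ := R.mkQ_surjective c
    obtain ⟨h, w', hw⟩ := hC2 w
    have : ηC (R.mkQ w) = p • R.mkQ w' := by
      rw [hηC, Submodule.mkQ_apply, Submodule.mapQ_apply, hw, Submodule.Quotient.mk_add,
        Submodule.Quotient.mk_smul, (Submodule.Quotient.mk_eq_zero R).mpr ⟨h, rfl⟩, zero_add,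
        Submodule.mkQ_apply]
    rw [this]
    exact Submodule.smul_mem_smul (Ideal.mem_span_singleton_self p) trivial
  obtain ⟨P, hm, -, hc, hP⟩ :=
    LinearMap.exists_monic_and_natDegree_eq_and_coeff_mem_pow_and_aeval_eq_zero ℤ ηC _ hrange
  obtain ⟨Q, hQ⟩ := exists_eq_X_pow_add p P hm hc
  -- `P(ηL)` maps `L` into the range of `j`
  have hs : ∀ w, ∃ h, aeval ηL P w = j h := by
    intro w
    have h1 : R.mkQ (aeval ηL P w) = aeval ηC P (R.mkQ w) :=
      aeval_comm R.mkQ ηC ηL (fun h => by rw [hηC]; rfl) P w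
    rw [hP, LinearMap.zero_apply, Submodule.mkQ_apply, Submodule.Quotient.mk_eq_zero] at h1
    obtain ⟨h, hh⟩ := h1
    exact ⟨h, hh.symm⟩
  obtain ⟨r, hr⟩ := hY
  obtain ⟨r', hr'⟩ := hs r
  obtain ⟨Y₁, hY₁⟩ := pow_apply_congr p ηH Y c0 hη P.natDegree
  refine ⟨aeval ηH P Y - p • r', P.natDegree, Y₁ + aeval ηH Q Y - r', ?_, ?_⟩
  · rw [map_sub, aeval_comm j ηL ηH hcomm, hr, map_smul, map_smul, hr', sub_self]
  · have : aeval ηH P Y = (ηH ^ P.natDegree) Y + p • aeval ηH Q Y := by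
      conv_lhs => rw [hQ]
      simp [Module.End.mul_apply]
    rw [this, hY₁]
    simp only [smul_add, smul_sub]
    abel

/-- The version for additive maps. -/
theorem exists_mem_ker' [Module.Finite ℤ L] (p : ℤ)
    (j : H →+ L) (ηL : L →+ L) (ηH : H →+ H)
    (hcomm : ∀ h, j (ηH h) = ηL (j h))
    (hC2 : ∀ w, ∃ h w', ηL w = j h + p • w')
    (Y : H) (c0 : ℤ) (hY : ∃ r, j Y = p • r) (hη : ∃ Y', ηH Y = c0 • Y + p • Y') :
    ∃ (x : H) (n : ℕ) (Y' : H), j x = 0 ∧ x = c0 ^ n • Y + p • Y' :=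
  exists_mem_ker p j.toIntLinearMap ηL.toIntLinearMap ηH.toIntLinearMap hcomm hC2 Y c0 hY hη

end Fermat.Agent.S41.C
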