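import Mathlib

/-!
# S41, module C, file Lift: the Nakayama step
-/

set_option autoImplicit false

namespace Fermat.Agent.S41.C

/-- If `L = j L' + 𝔪 L` then an element `Y` of `L'` which is killed by `𝔪` and by `j` modulo `p` can be
corrected modulo `p` to an element of `ker j`. -/
theorem lift {R₀ : Type*} [CommRing R₀] {L L' : Type*} [AddCommGroup L] [AddCommGroup L']
    [Module.Finite ℤ L] (ρ : R₀ →+* Module.End ℤ L) (ρ' : R₀ →+* Module.End ℤ L')
    (j : L' →ₗ[ℤ] L) (hj : ∀ t x, j (ρ' t x) = ρ t (j x)) (𝔪 : Ideal R₀) (p : ℤ)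
    (hsurj : ∀ v : L, v ∈ AddSubgroup.closure
      ({x | ∃ y, x = j y} ∪ {x | ∃ t ∈ 𝔪, ∃ v', x = ρ t v'}))
    (Y : L') (hY : ∀ t ∈ 𝔪, ∃ v, ρ' t Y = p • v) (hjY : ∃ r, j Y = p • r) :
    ∃ x v, j x = 0 ∧ x = Y + p • v := by
  let _ : Module R₀ L := Module.compHom L ρ
  let _ : Module R₀ L' := Module.compHom L' ρ'
  have hsm : ∀ (t : R₀) (v : L), t • v = ρ t v := fun _ _ => rfl
  have hsm' : ∀ (t : R₀) (v : L'), t • v = ρ' t v := fun _ _ => rfl
  let jR : L' →ₗ[R₀] L :=
    { toFun := j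
      map_add' := map_add j
      map_smul' := fun t x => by
        rw [hsm', hj, RingHom.id_apply, hsm] }
  have hzs : ∀ (n : ℤ) (v : L), (n : R₀) • v = n • v := by
    intro n v
    rw [hsm, map_intCast]
    simp
  have hfin : Module.Finite R₀ L := by
    obtain ⟨S, hS⟩ := (Module.finite_def (R := ℤ) (M := L)).mp inferInstance
    refine ⟨⟨S, ?_⟩⟩
    rw [eq_top_iff]
    intro v _
    have hv : v ∈ Submodule.span ℤ (S : Set L) := by rw [hS]; trivial
    induction hv using Submodule.span_induction with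
    | mem x hx => exact Submodule.subset_span hx
    | zero => exact Submodule.zero_mem _
    | add x y _ _ hx hy => exact Submodule.add_mem _ (hx trivial) (hy trivial)
    | smul n x _ hx =>
      rw [← hzs]
      exact Submodule.smul_mem _ _ (hx trivial)
  let R : Submodule R₀ L := LinearMap.range jR
  have htop : (⊤ : Submodule R₀ (L ⧸ R)) ≤ 𝔪 • (⊤ : Submodule R₀ (L ⧸ R)) := by
    intro c _
    obtain ⟨v, rfl⟩ := R.mkQ_surjective c
    have hv := hsurj v
    induction hv using AddSubgroup.closure_induction with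
    | mem x hx =>
      rcases hx with ⟨y, rfl⟩ | ⟨t, ht, v', rfl⟩
      · have : R.mkQ (j y) = 0 := by
          rw [Submodule.mkQ_apply, Submodule.Quotient.mk_eq_zero]
          exact ⟨y, rfl⟩
        rw [this]
        exact Submodule.zero_mem _
      · have : R.mkQ (ρ t v') = t • R.mkQ v' := by
          rw [← hsm, map_smul]
        rw [this]
        exact Submodule.smul_mem_smul ht trivial
    | zero => rw [map_zero]; exact Submodule.zero_mem _
    | add x y _ _ hx hy => rw [map_add]; exact Submodule.add_mem _ (hx trivial) (hy trivial)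
    | neg x _ hx => rw [map_neg]; exact Submodule.neg_mem _ (hx trivial)
  obtain ⟨s, hs1, hs⟩ := Submodule.exists_sub_one_mem_and_smul_eq_zero_of_fg_of_le_smul 𝔪
    (⊤ : Submodule R₀ (L ⧸ R)) (Module.Finite.fg_top) htop
  have hsr : ∀ v : L, ∃ r', ρ s v = j r' := by
    intro v
    have h1 := hs (R.mkQ v) trivial
    rw [← map_smul, Submodule.mkQ_apply, Submodule.Quotient.mk_eq_zero] at h1
    obtain ⟨r', hr'⟩ := h1
    exact ⟨r', hr'.symm⟩
  obtain ⟨r, hr⟩ := hjY
  obtain ⟨r', hr'⟩ := hsr r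
  obtain ⟨v₀, hv₀⟩ := hY _ hs1
  refine ⟨ρ' s Y - p • r', v₀ - r', ?_, ?_⟩
  · rw [map_sub, hj, hr, map_smul, map_smul, hr', sub_self]
  · have : ρ' s Y = Y + ρ' (s - 1) Y := by
      rw [map_sub, map_one]
      simp
    rw [this, hv₀, smul_sub]
    abel

end Fermat.Agent.S41.C
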